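/-
S58lib / Lead / PointCount  (lead)  --  trivial bounds for the point count of a Weierstrass curve

For a Weierstrass curve `E` over a finite field `F` (no smoothness assumed):
`1 ≤ #E(F) ≤ 2 #F + 1`, hence for `W : WeierstrassCurve ℤ` and a prime `ℓ`:
`a_ℓ(W) ≠ ℓ + 1` and `a_ℓ(W) ≠ -(ℓ + 1)`  (no Hasse bound needed).
-/
import Fermat.Prelude.Def_FLTPrelim_Modularity
import Mathlib

set_option autoImplicit false
set_option linter.unusedSectionVars false
set_option linter.style.haveILetI false

namespace Fermat.Agent.S58lib.Lead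

open Polynomial

variable {F : Type} [Field F] [Fintype F] [DecidableEq F]

/-- the quadratic polynomial in `Y` cutting out the points with first coordinate `x` -/
noncomputable def fibrePoly (E : WeierstrassCurve F) (x : F) : F[X] :=
  X ^ 2 + C (E.a₁ * x + E.a₃) * X - C (x ^ 3 + E.a₂ * x ^ 2 + E.a₄ * x + E.a₆)

theorem fibrePoly_natDegree (E : WeierstrassCurve F) (x : F) : (fibrePoly E x).natDegree = 2 := by
  unfold fibrePoly
  compute_degree!

theorem fibrePoly_ne_zero (E : WeierstrassCurve F) (x : F) : fibrePoly E x ≠ 0 := by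
  intro h
  have := fibrePoly_natDegree E x
  rw [h, natDegree_zero] at this
  omega

theorem equation_iff_root (E : WeierstrassCurve F) (x y : F) :
    E.toAffine.Equation x y ↔ (fibrePoly E x).IsRoot y := by
  rw [WeierstrassCurve.Affine.equation_iff, fibrePoly, IsRoot.def]
  simp only [eval_sub, eval_add, eval_pow, eval_X, eval_mul, eval_C]
  constructor
  · intro h; linear_combination h
  · intro h; linear_combination h

/-- the map `E(F) → Option (F × F)` -/
def toOpt (E : WeierstrassCurve F) : E.toAffine.Point → Option (F × F)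
  | .zero => none
  | .some x y _ => some (x, y)

theorem toOpt_injective (E : WeierstrassCurve F) : Function.Injective (toOpt E) := by
  rintro (_ | ⟨x₁, y₁, h₁⟩) (_ | ⟨x₂, y₂, h₂⟩) h <;>
    simp only [toOpt, Option.some.injEq, Prod.mk.injEq, reduceCtorEq] at h
  · rfl
  · obtain ⟨rfl, rfl⟩ := h; rfl

/-- the affine solutions -/
noncomputable def solSet (E : WeierstrassCurve F) : Finset (F × F) :=
  Finset.univ.sigma (fun x : F => (fibrePoly E x).roots.toFinset) |>.map
    ⟨fun p => (p.1, p.2), fun p q h => by
      cases p; cases q; simp only [Prod.mk.injEq] at h; obtain ⟨rfl, rfl⟩ := h; rfl⟩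

theorem card_solSet_le (E : WeierstrassCurve F) : (solSet E).card ≤ 2 * Fintype.card F := by
  unfold solSet
  rw [Finset.card_map, Finset.card_sigma]
  calc ∑ x : F, ((fibrePoly E x).roots.toFinset).card
      ≤ ∑ _x : F, 2 := by
        refine Finset.sum_le_sum (fun x _ => ?_)
        calc ((fibrePoly E x).roots.toFinset).card ≤ Multiset.card (fibrePoly E x).roots :=
              Multiset.toFinset_card_le _
          _ ≤ (fibrePoly E x).natDegree := card_roots' _
          _ = 2 := fibrePoly_natDegree E x
    _ = 2 * Fintype.card F := by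
        rw [Finset.sum_const, Finset.card_univ, smul_eq_mul, mul_comm]

theorem toOpt_mem (E : WeierstrassCurve F) (P : E.toAffine.Point) :
    toOpt E P ∈ insert none ((solSet E).map ⟨some, Option.some_injective _⟩) := by
  rcases P with _ | ⟨x, y, h⟩
  · simp [toOpt]
  · simp only [toOpt, Finset.mem_insert, reduceCtorEq, Finset.mem_map, Function.Embedding.coeFn_mk,
      Option.some.injEq, exists_eq_right, false_or]
    unfold solSet
    simp only [Finset.mem_map, Finset.mem_sigma, Finset.mem_univ, true_and,
      Function.Embedding.coeFn_mk, Sigma.exists, Prod.mk.injEq]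
    refine ⟨x, y, ?_, rfl, rfl⟩
    rw [Multiset.mem_toFinset, mem_roots (fibrePoly_ne_zero E x)]
    exact (equation_iff_root E x y).mp h.1

/-- `#E(F) ≤ 2 #F + 1` -/
theorem card_point_le (E : WeierstrassCurve F) :
    Nat.card E.toAffine.Point ≤ 2 * Fintype.card F + 1 := by
  classical
  haveI : Finite E.toAffine.Point := Finite.of_injective _ (toOpt_injective E)
  haveI : Fintype E.toAffine.Point := Fintype.ofFinite _
  rw [Nat.card_eq_fintype_card]
  calc Fintype.card E.toAffine.Point
      = (Finset.univ.image (toOpt E)).card := by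
        rw [Finset.card_image_of_injective _ (toOpt_injective E), Finset.card_univ]
    _ ≤ (insert none ((solSet E).map ⟨some, Option.some_injective _⟩)).card := by
        refine Finset.card_le_card (fun o ho => ?_)
        obtain ⟨P, -, rfl⟩ := Finset.mem_image.mp ho
        exact toOpt_mem E P
    _ ≤ ((solSet E).map ⟨some, Option.some_injective _⟩).card + 1 := Finset.card_insert_le _ _
    _ = (solSet E).card + 1 := by rw [Finset.card_map]
    _ ≤ 2 * Fintype.card F + 1 := Nat.add_le_add_right (card_solSet_le E) 1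

/-- `1 ≤ #E(F)` -/
theorem one_le_card_point (E : WeierstrassCurve F) : 1 ≤ Nat.card E.toAffine.Point := by
  haveI : Finite E.toAffine.Point := Finite.of_injective _ (toOpt_injective E)
  exact Nat.one_le_iff_ne_zero.mpr (Nat.card_ne_zero.mpr ⟨⟨0⟩, inferInstance⟩)

end Fermat.Agent.S58lib.Lead

namespace Fermat.Agent.S58lib.Lead

/-- **`a_ℓ(W) ≠ ± (ℓ + 1)`** -/
theorem apOfModel_ne (W : WeierstrassCurve ℤ) {ℓ : ℕ} (hℓ : ℓ.Prime) :
    W.apOfModel ℓ ≠ (ℓ : ℤ) + 1 ∧ W.apOfModel ℓ ≠ -((ℓ : ℤ) + 1) := by
  classical
  haveI : Fact ℓ.Prime := ⟨hℓ⟩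
  have hc : Nat.card (ZMod ℓ) = ℓ := by rw [Nat.card_eq_fintype_card, ZMod.card]
  have h1 := one_le_card_point (W.reductionMod ℓ)
  have h2 := card_point_le (W.reductionMod ℓ)
  rw [ZMod.card] at h2
  unfold WeierstrassCurve.apOfModel WeierstrassCurve.traceOfFrobenius WeierstrassCurve.card
  rw [hc]
  constructor
  · intro h; omega
  · intro h; omega

end Fermat.Agent.S58lib.Lead
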